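import Mathlib.LinearAlgebra.FreeModule.Finite.Matrix
import Mathlib.LinearAlgebra.Dimension.RankNullity
import Mathlib.LinearAlgebra.Dimension.Localization
import Mathlib.LinearAlgebra.FreeModule.PID
import Mathlib.Algebra.Module.PID
import Mathlib.RingTheory.Finiteness.Basic
import Mathlib.Algebra.Algebra.Subalgebra.Basic

/-!
# S16, duality: the abstract lemma
Owner: helper16.

`L` a finite free `ℤ`-module, `T ⊆ End L` a commutative subalgebra, `a : L → ℤ` linear, such that
`(∀ t ∈ T, N ∣ a (t f)) → f ∈ N L` for all `N` (saturation; `N = 0` is separation).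
Then every linear functional on `T` is of the form `t ↦ a (t f)`.
-/

set_option autoImplicit false

namespace Fermat.Agent.S16

open Module

theorem exists_of_dual {L : Type*} [AddCommGroup L] [Module.Free ℤ L] [Module.Finite ℤ L]
    (T : Subalgebra ℤ (Module.End ℤ L)) (hcomm : ∀ s ∈ T, ∀ t ∈ T, s * t = t * s)
    (a : L →ₗ[ℤ] ℤ)
    (hsat : ∀ (N : ℤ) (f : L), (∀ t ∈ T, N ∣ a (t f)) → ∃ g : L, f = N • g)
    (ψ : T →ₗ[ℤ] ℤ) : ∃ f : L, ∀ t : T, a ((t : Module.End ℤ L) f) = ψ t := by
  classical
  -- the two maps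
  let ι : L →ₗ[ℤ] (T →ₗ[ℤ] ℤ) :=
    { toFun := fun f =>
        { toFun := fun t => a ((t : Module.End ℤ L) f)
          map_add' := fun s t => by simp
          map_smul' := fun c t => by simp }
      map_add' := fun f g => by ext t; simp
      map_smul' := fun c f => by ext t; simp }
  let κ : T →ₗ[ℤ] (L →ₗ[ℤ] ℤ) :=
    { toFun := fun t => a.comp (t : Module.End ℤ L)
      map_add' := fun s t => by ext f; simp
      map_smul' := fun c t => by ext f; simp }
  have hι : Function.Injective ι := by
    rw [injective_iff_map_eq_zero]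
    intro f hf
    obtain ⟨g, hg⟩ := hsat 0 f (fun t ht => by
      have := LinearMap.congr_fun hf ⟨t, ht⟩
      simpa [ι] using this)
    simpa using hg
  have hκ : Function.Injective κ := by
    rw [injective_iff_map_eq_zero]
    intro t ht
    apply Subtype.ext
    apply LinearMap.ext
    intro f
    apply hι
    ext s
    have h1 : a ((t : Module.End ℤ L) ((s : Module.End ℤ L) f)) = 0 := by
      have := LinearMap.congr_fun ht ((s : Module.End ℤ L) f)
      simpa [κ] using this
    have h2 : (s : Module.End ℤ L) ((t : Module.End ℤ L) f) =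
        (t : Module.End ℤ L) ((s : Module.End ℤ L) f) := by
      have := hcomm s s.2 t t.2
      exact LinearMap.congr_fun this f
    simp only [ι, LinearMap.coe_mk, AddHom.coe_mk, ZeroMemClass.coe_zero, LinearMap.zero_apply,
      map_zero]
    rw [h2, h1]
  -- finiteness and freeness of `T`
  haveI : Module.Finite ℤ (Module.End ℤ L) := inferInstance
  haveI : Module.Finite ℤ T :=
    Module.Finite.of_injective T.val.toLinearMap Subtype.val_injective
  haveI : Module.Free ℤ T := Module.free_of_finite_type_torsion_free'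
  -- ranks
  have hr1 : finrank ℤ T ≤ finrank ℤ L := by
    have := LinearMap.finrank_le_finrank_of_injective hκ
    rwa [Module.finrank_linearMap_self] at this
  have hr2 : finrank ℤ L ≤ finrank ℤ T := by
    have := LinearMap.finrank_le_finrank_of_injective hι
    rwa [Module.finrank_linearMap_self] at this
  have hr : finrank ℤ (T →ₗ[ℤ] ℤ) = finrank ℤ L := by
    rw [Module.finrank_linearMap_self]; omega
  -- the cokernel
  set R := LinearMap.range ι with hR
  have hRrank : finrank ℤ R = finrank ℤ L :=
    LinearMap.finrank_range_of_inj hι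
  have hQrank : finrank ℤ ((T →ₗ[ℤ] ℤ) ⧸ R) = 0 := by
    have := Submodule.finrank_quotient_add_finrank R
    omega
  haveI : IsTorsionFree ℤ ((T →ₗ[ℤ] ℤ) ⧸ R) := by
    apply Module.IsTorsionFree.of_smul_eq_zero
    intro N q hNq
    by_cases hN : N = 0
    · exact Or.inl hN
    right
    obtain ⟨χ, rfl⟩ := Submodule.Quotient.mk_surjective R q
    rw [← Submodule.Quotient.mk_smul, Submodule.Quotient.mk_eq_zero] at hNq
    obtain ⟨f, hf⟩ := hNq
    obtain ⟨g, hg⟩ := hsat N f (fun t ht => by
      have := LinearMap.congr_fun hf ⟨t, ht⟩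
      simp only [ι, LinearMap.coe_mk, AddHom.coe_mk, LinearMap.smul_apply, smul_eq_mul] at this
      rw [this]
      exact dvd_mul_right _ _)
    rw [Submodule.Quotient.mk_eq_zero]
    refine ⟨g, ?_⟩
    have h1 : N • ι g = N • χ := by
      rw [← map_smul, ← hg, hf]
    exact smul_right_injective _ hN h1
  haveI : Module.Free ℤ ((T →ₗ[ℤ] ℤ) ⧸ R) := Module.free_of_finite_type_torsion_free'
  have hsub : Subsingleton ((T →ₗ[ℤ] ℤ) ⧸ R) := (Module.finrank_eq_zero_iff_of_free ℤ _).1 hQrank
  have htop : R = ⊤ := Submodule.Quotient.subsingleton_iff.1 hsub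
  have hψ : ψ ∈ R := htop ▸ Submodule.mem_top
  obtain ⟨f, hf⟩ := hψ
  refine ⟨f, fun t => ?_⟩
  have := LinearMap.congr_fun hf t
  simpa [ι] using this

end Fermat.Agent.S16
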