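import Fermat.Agent.S16.Dual.Coeff
import Fermat.Agent.S16.Dual.Abstract
import Fermat.Agent.S16.Algebra

/-!
# S16, duality: from the forms bound to the upper bound
Owner: helper16.
-/

set_option autoImplicit false

namespace Fermat.Agent.S16

open ModularCurve CuspForm ModularFormClass CongruenceSubgroup
open Fermat.Agent.S49.Forms

section abstract

/-- Uniqueness for the Hecke recursion (abstract form). -/
theorem rec_unique_abs {R M : Type*} [Mul R] [AddCommGroup M]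
    (gen : Nat.Primes → R) (c : Nat.Primes → ℤ) (u : ℕ → R → M)
    (h1 : ∀ t, u 1 t = 0)
    (hrec : ∀ (ℓ : Nat.Primes) (k : ℕ) (t : R), 1 ≤ k →
      u (k * ℓ) t = u k (gen ℓ * t) - c ℓ • (if (ℓ : ℕ) ∣ k then u (k / ℓ) t else 0)) :
    ∀ k, 1 ≤ k → ∀ t, u k t = 0 := by
  intro k
  induction k using Nat.strong_induction_on with
  | _ k ih =>
    intro hk t
    rcases Nat.lt_or_ge k 2 with h2 | h2
    · have : k = 1 := by omega
      subst this
      exact h1 t
    · have hk1 : k ≠ 1 := by omega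
      have hℓ : (k.minFac).Prime := Nat.minFac_prime hk1
      set ℓ : Nat.Primes := ⟨k.minFac, hℓ⟩ with hℓdef
      have hdvd : (ℓ : ℕ) ∣ k := Nat.minFac_dvd k
      have hkeq : k = k / ℓ * ℓ := (Nat.div_mul_cancel hdvd).symm
      have hpos : 1 ≤ k / ℓ := Nat.div_pos (Nat.le_of_dvd (by omega) hdvd) hℓ.pos
      have hlt : k / ℓ < k := Nat.div_lt_self (by omega) hℓ.one_lt
      rw [hkeq, hrec ℓ (k / ℓ) t hpos, ih (k / ℓ) hlt hpos]
      split_ifs with hd
      · have hpos2 : 1 ≤ k / ℓ / ℓ :=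
          Nat.div_pos (Nat.le_of_dvd (by omega) hd) hℓ.pos
        have hlt2 : k / ℓ / ℓ < k := lt_of_le_of_lt (Nat.div_le_self _ _) hlt
        rw [ih (k / ℓ / ℓ) hlt2 hpos2]
        simp
      · simp

/-- Divisibility version. -/
theorem rec_dvd_abs {R : Type*} [Mul R] (gen : Nat.Primes → R) (c : Nat.Primes → ℤ)
    (a : ℕ → R → ℤ) (M : ℤ)
    (ha : ∀ (ℓ : Nat.Primes) (k : ℕ) (t : R),
      a (k * ℓ) t = a k (gen ℓ * t) - c ℓ * (if (ℓ : ℕ) ∣ k then a (k / ℓ) t else 0))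
    (h1 : ∀ t, M ∣ a 1 t) : ∀ k, 1 ≤ k → ∀ t, M ∣ a k t := by
  have key := rec_unique_abs (M := ZMod M.natAbs) gen c
    (fun k t => ((a k t : ℤ) : ZMod M.natAbs))
    (fun t => by
      rw [ZMod.intCast_zmod_eq_zero_iff_dvd]
      exact Int.natAbs_dvd.2 (h1 t))
    (fun ℓ k t _ => by
      rw [ha ℓ k t]
      push_cast
      split_ifs <;> simp)
  intro k hk t
  have := key k hk t
  rw [ZMod.intCast_zmod_eq_zero_iff_dvd] at this
  exact Int.natAbs_dvd.1 this

/-- Eigen-character version: if `a 1 t ≡ φ t` then `a k t ≡ σ k · φ t`. -/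
theorem rec_eis_abs {R : Type*} [CommRing R] (m : ℕ) (gen : Nat.Primes → R)
    (c e : Nat.Primes → ℤ) (σ : ℕ → ℕ) (a : ℕ → R → ℤ) (φ : R →+* ZMod m)
    (ha : ∀ (ℓ : Nat.Primes) (k : ℕ) (t : R),
      a (k * ℓ) t = a k (gen ℓ * t) - c ℓ * (if (ℓ : ℕ) ∣ k then a (k / ℓ) t else 0))
    (hσ1 : σ 1 = 1)
    (hσ : ∀ (ℓ : Nat.Primes) (k : ℕ), 1 ≤ k →
      (σ (k * ℓ) : ℤ) = e ℓ * σ k - c ℓ * (if (ℓ : ℕ) ∣ k then (σ (k / ℓ) : ℤ) else 0))
    (hφ : ∀ ℓ : Nat.Primes, φ (gen ℓ) = ((e ℓ : ℤ) : ZMod m))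
    (h1 : ∀ t, ((a 1 t : ℤ) : ZMod m) = φ t) :
    ∀ k, 1 ≤ k → ∀ t, ((a k t : ℤ) : ZMod m) = (σ k : ZMod m) * φ t := by
  have key := rec_unique_abs (M := ZMod m) gen c
    (fun k t => ((a k t : ℤ) : ZMod m) - (σ k : ZMod m) * φ t)
    (fun t => by
      show ((a 1 t : ℤ) : ZMod m) - (σ 1 : ZMod m) * φ t = 0
      rw [h1 t, hσ1]
      simp)
    (fun ℓ k t hk => by
      show ((a (k * ℓ) t : ℤ) : ZMod m) - (σ (k * ℓ) : ZMod m) * φ t =
        (((a k (gen ℓ * t) : ℤ) : ZMod m) - (σ k : ZMod m) * φ (gen ℓ * t)) -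
        c ℓ • (if (ℓ : ℕ) ∣ k then (((a (k / ℓ) t : ℤ) : ZMod m) - (σ (k / ℓ) : ZMod m) * φ t)
          else 0)
      have h2 : ((σ (k * ℓ) : ℕ) : ZMod m) = ((e ℓ : ℤ) : ZMod m) * (σ k : ZMod m) -
          ((c ℓ : ℤ) : ZMod m) * (if (ℓ : ℕ) ∣ k then ((σ (k / ℓ) : ℕ) : ZMod m) else 0) := by
        have := congrArg (Int.cast : ℤ → ZMod m) (hσ ℓ k hk)
        push_cast at this
        rw [this]
      rw [ha ℓ k t, h2, map_mul, hφ]
      by_cases hd : (ℓ : ℕ) ∣ k
      · simp only [if_pos hd, zsmul_eq_mul]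
        push_cast
        ring
      · simp only [if_neg hd, zsmul_eq_mul]
        push_cast
        ring)
  intro k hk t
  have := key k hk t
  exact sub_eq_zero.1 this

end abstract

section

variable (N : ℕ) [NeZero N]

/-- The coefficient functionals satisfy the Hecke recursion. -/
theorem coeffZ_rec (f : ↥(intLattice N 2)) (ℓ : Nat.Primes) (k : ℕ)
    (t : ↥(heckeLatticeAlgebra N ∅)) :
    coeffZ N (k * ℓ) ((t : Module.End ℤ ↥(intLattice N 2)) f) =
      coeffZ N k (((latEval N (heckeGen ℓ) * t : ↥(heckeLatticeAlgebra N ∅)) :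
        Module.End ℤ ↥(intLattice N 2)) f) -
        lvl N ℓ * (if (ℓ : ℕ) ∣ k then coeffZ N (k / ℓ)
          ((t : Module.End ℤ ↥(intLattice N 2)) f) else 0) := by
  have h := coeffZ_latEval_heckeGen N ℓ k ((t : Module.End ℤ ↥(intLattice N 2)) f)
  have hmul : (((latEval N (heckeGen ℓ) * t : ↥(heckeLatticeAlgebra N ∅)) :
      Module.End ℤ ↥(intLattice N 2)) f) =
      ((latEval N (heckeGen ℓ) : ↥(heckeLatticeAlgebra N ∅)) : Module.End ℤ ↥(intLattice N 2))
        ((t : Module.End ℤ ↥(intLattice N 2)) f) := rfl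
  rw [hmul, h]
  ring

/-- Saturation: the hypothesis of the abstract duality lemma. -/
theorem lattice_saturated (M : ℤ) (f : ↥(intLattice N 2))
    (h : ∀ t ∈ heckeLatticeAlgebra N ∅, M ∣ coeffZLin N 1 (t f)) :
    ∃ g : ↥(intLattice N 2), f = M • g := by
  apply exists_eq_smul_of_dvd_coeffZ
  intro k hk
  have key := rec_dvd_abs (R := ↥(heckeLatticeAlgebra N ∅))
    (fun ℓ => latEval N (heckeGen ℓ)) (fun ℓ => lvl N ℓ)
    (fun k t => coeffZ N k ((t : Module.End ℤ ↥(intLattice N 2)) f)) M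
    (fun ℓ k t => coeffZ_rec N f ℓ k t)
    (fun t => h t t.2) k hk 1
  exact key

end

section main

variable (p : ℕ) [Fact p.Prime]

/-- The uniform `σ'` recursion (to be supplied from `Dual/Sigma.lean`). -/
def SigmaRec : Prop :=
  sigmaP p 1 = 1 ∧ ∀ (ℓ : Nat.Primes) (k : ℕ), 1 ≤ k →
    (sigmaP p (k * ℓ) : ℤ) = eisensteinSystem p ℓ * sigmaP p k -
      lvl p ℓ * (if (ℓ : ℕ) ∣ k then (sigmaP p (k / ℓ) : ℤ) else 0)

theorem exists_linear_lift (m : ℕ) (φ : ↥(heckeLatticeAlgebra p ∅) →+* ZMod m) :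
    ∃ ψ : ↥(heckeLatticeAlgebra p ∅) →ₗ[ℤ] ℤ, ∀ t, ((ψ t : ℤ) : ZMod m) = φ t := by
  have hcast : Function.Surjective ((Int.castAddHom (ZMod m)).toIntLinearMap) :=
    ZMod.intCast_surjective
  obtain ⟨ψ, hψ⟩ := Module.projective_lifting_property
    ((Int.castAddHom (ZMod m)).toIntLinearMap) (φ.toAddMonoidHom.toIntLinearMap) hcast
  exact ⟨ψ, fun t => LinearMap.congr_fun hψ t⟩

/-- From an Eisenstein character mod `m` to a form congruent to `E'` mod `m`. -/
theorem exists_form_of_char (hsig : SigmaRec p) (m : ℕ)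
    (φ : ↥(heckeLatticeAlgebra p ∅) →+* ZMod m)
    (hφ : ∀ ℓ : Nat.Primes, φ (latEval p (heckeGen ℓ)) = ((eisensteinSystem p ℓ : ℤ) : ZMod m)) :
    ∃ f : ↥(intLattice p 2), ∀ k, 1 ≤ k → (m : ℤ) ∣ coeffZ p k f - (sigmaP p k : ℤ) := by
  obtain ⟨ψ, hψ⟩ := exists_linear_lift p m φ
  haveI := intLattice.moduleFinite p
  haveI := intLattice.moduleFree p
  obtain ⟨f, hf⟩ := exists_of_dual (heckeLatticeAlgebra p ∅)
    (fun s hs t ht => congrArg Subtype.val
      (mul_comm (⟨s, hs⟩ : ↥(heckeLatticeAlgebra p ∅)) ⟨t, ht⟩))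
    (coeffZLin p 1) (lattice_saturated p) ψ
  refine ⟨f, fun k hk => ?_⟩
  have key := rec_eis_abs (R := ↥(heckeLatticeAlgebra p ∅)) m
    (fun ℓ => latEval p (heckeGen ℓ)) (fun ℓ => lvl p ℓ) (eisensteinSystem p) (sigmaP p)
    (fun k t => coeffZ p k ((t : Module.End ℤ ↥(intLattice p 2)) f)) φ
    (fun ℓ k t => coeffZ_rec p f ℓ k t) hsig.1 hsig.2 hφ
    (fun t => by
      have := hf t
      rw [coeffZLin_apply] at this
      rw [this, hψ t]) k hk 1
  simp only [OneMemClass.coe_one, Module.End.one_apply, map_one, mul_one] at key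
  rw [← ZMod.intCast_zmod_eq_zero_iff_dvd]
  push_cast
  rw [key]
  simp

theorem upperBound_of_formsBound_aux (hint : HasIntegralStructure p 2) (hsig : SigmaRec p)
    (h : FormsBound p) : UpperBound p := by
  classical
  -- the ideal `J` of Eisenstein values of annihilating polynomials
  have heis_surj : Function.Surjective (eisEval p) := fun c =>
    ⟨MvPolynomial.C c, by simp [eisEval]⟩
  set J : Ideal ℤ := Ideal.map (eisEval p) (RingHom.ker (heckeEvalForms p 2)) with hJ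
  have hJmem : ∀ x : ℤ, x ∈ J ↔ ∃ P, heckeEvalForms p 2 P = 0 ∧ eisEval p P = x := by
    intro x
    rw [hJ, Ideal.mem_map_iff_of_surjective _ heis_surj]
    simp [RingHom.mem_ker]
  obtain ⟨m, hm⟩ : ∃ m : ℕ, J = Ideal.span {(m : ℤ)} := by
    refine ⟨(Submodule.IsPrincipal.generator J).natAbs, ?_⟩
    rw [Int.span_natAbs, Ideal.span_singleton_generator]
  -- it suffices to show `m ∣ n`
  suffices hmn : m ∣ eisensteinNumerator p by
    have : ((eisensteinNumerator p : ℕ) : ℤ) ∈ J := by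
      rw [hm, Ideal.mem_span_singleton]
      exact_mod_cast hmn
    exact (hJmem _).1 this
  -- the ring homomorphism `φ : T → ℤ/m`
  have hbij := latticeRestrictHom_bijective p ∅ hint
  have hsurj : Function.Surjective (latEval p) :=
    hbij.2.comp (heckeEvalForms_surjective p 2)
  have hzero : ∀ P, latEval p P = 0 → heckeEvalForms p 2 P = 0 := by
    intro P hP
    apply hbij.1
    rw [map_zero]
    exact hP
  set g : HeckeAlg →+* ZMod m := (Int.castRingHom (ZMod m)).comp (eisEval p) with hg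
  have hker : RingHom.ker (latEval p) ≤ RingHom.ker g := by
    intro P hP
    rw [RingHom.mem_ker] at hP ⊢
    rw [hg, RingHom.comp_apply, eq_intCast, ZMod.intCast_zmod_eq_zero_iff_dvd]
    have : eisEval p P ∈ J := (hJmem _).2 ⟨P, hzero P hP, rfl⟩
    rw [hm, Ideal.mem_span_singleton] at this
    exact this
  set φ : ↥(heckeLatticeAlgebra p ∅) →+* ZMod m :=
    RingHom.liftOfSurjective (latEval p) hsurj ⟨g, hker⟩ with hφ
  have hφcomp : ∀ P, φ (latEval p P) = ((eisEval p P : ℤ) : ZMod m) := fun P =>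
    RingHom.liftOfRightInverse_comp_apply _ _ (Function.surjInv_eq hsurj) ⟨g, hker⟩ P
  have he : ∀ ℓ : Nat.Primes, eisEval p (heckeGen ℓ) = eisensteinSystem p ℓ := by
    intro ℓ
    exact aeval_heckeGen (eisensteinSystem p) ℓ
  obtain ⟨f, hf⟩ := exists_form_of_char p hsig m φ (fun ℓ => by rw [hφcomp, he])
  exact h m (f : CuspForm (Gamma0 p) 2) fun k hk => ⟨coeffZ p k f, coeffZ_spec p k f, hf k hk⟩

end main

end Fermat.Agent.S16
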