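/-
S16 / Duality: the Hecke recursion satisfied by `sigmaP p k = ∑_{d ∣ k, p ∤ d} d`
(helper85, for helper16's `Duality.lean`).
-/
import Fermat.Agent.S16.Defs

set_option autoImplicit false

namespace Fermat.Agent.S16

theorem sigmaP_one (p : ℕ) (hp : p.Prime) : sigmaP p 1 = 1 := by
  unfold sigmaP
  rw [Nat.divisors_one, Finset.filter_singleton, if_pos (by simpa using hp.ne_one)]
  simp

theorem sigmaP_mul_self (p k : ℕ) (hp : p.Prime) (hk : 0 < k) :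
    sigmaP p (k * p) = sigmaP p k := by
  unfold sigmaP
  congr 1
  ext d
  simp only [Finset.mem_filter, Nat.mem_divisors]
  constructor
  · rintro ⟨⟨hd, -⟩, hpd⟩
    refine ⟨⟨?_, hk.ne'⟩, hpd⟩
    have hc : Nat.Coprime d p := ((Nat.Prime.coprime_iff_not_dvd hp).2 hpd).symm
    exact hc.dvd_of_dvd_mul_right hd
  · rintro ⟨⟨hd, -⟩, hpd⟩
    exact ⟨⟨hd.mul_right p, Nat.mul_ne_zero hk.ne' hp.ne_zero⟩, hpd⟩

/-- The set of divisors of `k` prime to `p`. -/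
lemma sigmaP_filter_mul_prime (p ℓ k : ℕ) (hp : p.Prime) (hℓ : ℓ.Prime) (hℓp : ℓ ≠ p)
    (hk : 0 < k) :
    ((k * ℓ).divisors.filter fun d => ¬ p ∣ d) =
      (k.divisors.filter fun d => ¬ p ∣ d) ∪
        ((k.divisors.filter fun d => ¬ p ∣ d).image fun d => ℓ * d) := by
  have hpl : ¬ p ∣ ℓ := fun h => hℓp ((Nat.prime_dvd_prime_iff_eq hp hℓ).1 h).symm
  ext d
  simp only [Finset.mem_filter, Nat.mem_divisors, Finset.mem_union, Finset.mem_image]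
  constructor
  · rintro ⟨⟨hd, -⟩, hpd⟩
    by_cases hld : ℓ ∣ d
    · right
      obtain ⟨e, rfl⟩ := hld
      refine ⟨e, ⟨⟨?_, hk.ne'⟩, fun h => hpd (h.mul_left ℓ)⟩, rfl⟩
      rw [mul_comm k ℓ] at hd
      exact (Nat.mul_dvd_mul_iff_left hℓ.pos).1 hd
    · left
      have hc : Nat.Coprime d ℓ := ((Nat.Prime.coprime_iff_not_dvd hℓ).2 hld).symm
      exact ⟨⟨hc.dvd_of_dvd_mul_right hd, hk.ne'⟩, hpd⟩
  · rintro (⟨⟨hd, -⟩, hpd⟩ | ⟨e, ⟨⟨he, -⟩, hpe⟩, rfl⟩)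
    · exact ⟨⟨hd.mul_right ℓ, Nat.mul_ne_zero hk.ne' hℓ.ne_zero⟩, hpd⟩
    · refine ⟨⟨?_, Nat.mul_ne_zero hk.ne' hℓ.ne_zero⟩, ?_⟩
      · rw [mul_comm k ℓ]; exact Nat.mul_dvd_mul_left ℓ he
      · intro h
        rcases (Nat.Prime.dvd_mul hp).1 h with h | h
        · exact hpl h
        · exact hpe h

lemma sigmaP_inter_mul_prime (p ℓ k : ℕ) (hp : p.Prime) (hℓ : ℓ.Prime) (hℓp : ℓ ≠ p)
    (hk : 0 < k) :
    (k.divisors.filter fun d => ¬ p ∣ d) ∩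
        ((k.divisors.filter fun d => ¬ p ∣ d).image fun d => ℓ * d) =
      if ℓ ∣ k then ((k / ℓ).divisors.filter fun d => ¬ p ∣ d).image fun d => ℓ * d else ∅ := by
  have hpl : ¬ p ∣ ℓ := fun h => hℓp ((Nat.prime_dvd_prime_iff_eq hp hℓ).1 h).symm
  split_ifs with hlk
  · obtain ⟨m, rfl⟩ := hlk
    have hm : 0 < m := by
      rcases Nat.eq_zero_or_pos m with h | h
      · simp [h] at hk
      · exact h
    rw [Nat.mul_div_cancel_left m hℓ.pos]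
    ext d
    simp only [Finset.mem_inter, Finset.mem_filter, Nat.mem_divisors, Finset.mem_image]
    constructor
    · rintro ⟨⟨⟨hd, -⟩, hpd⟩, e, ⟨⟨-, -⟩, hpe⟩, rfl⟩
      exact ⟨e, ⟨⟨(Nat.mul_dvd_mul_iff_left hℓ.pos).1 hd, hm.ne'⟩, hpe⟩, rfl⟩
    · rintro ⟨e, ⟨⟨he, -⟩, hpe⟩, rfl⟩
      refine ⟨⟨⟨Nat.mul_dvd_mul_left ℓ he, hk.ne'⟩, ?_⟩, e,
        ⟨⟨he.mul_left ℓ, hk.ne'⟩, hpe⟩, rfl⟩
      intro h
      rcases (Nat.Prime.dvd_mul hp).1 h with h | h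
      · exact hpl h
      · exact hpe h
  · ext d
    simp only [Finset.mem_inter, Finset.mem_filter, Nat.mem_divisors, Finset.mem_image,
      Finset.notMem_empty, iff_false]
    rintro ⟨⟨⟨hd, -⟩, -⟩, e, -, rfl⟩
    exact hlk ((dvd_mul_right ℓ e).trans hd)

lemma sigmaP_sum_image (p ℓ k : ℕ) (hℓ : ℓ.Prime) :
    ∑ d ∈ ((k.divisors.filter fun d => ¬ p ∣ d).image fun d => ℓ * d), d = ℓ * sigmaP p k := by
  unfold sigmaP
  rw [Finset.sum_image (fun a _ b _ h => Nat.eq_of_mul_eq_mul_left hℓ.pos h), Finset.mul_sum]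

/-- Natural-number form of the Hecke recursion at `ℓ ≠ p`. -/
theorem sigmaP_mul_prime_nat (p ℓ k : ℕ) (hp : p.Prime) (hℓ : ℓ.Prime) (hℓp : ℓ ≠ p)
    (hk : 0 < k) :
    sigmaP p (k * ℓ) + (if ℓ ∣ k then ℓ * sigmaP p (k / ℓ) else 0) = (1 + ℓ) * sigmaP p k := by
  have h1 := sigmaP_filter_mul_prime p ℓ k hp hℓ hℓp hk
  have h2 := sigmaP_inter_mul_prime p ℓ k hp hℓ hℓp hk
  have h3 := Finset.sum_union_inter (s₁ := k.divisors.filter fun d => ¬ p ∣ d)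
    (s₂ := (k.divisors.filter fun d => ¬ p ∣ d).image fun d => ℓ * d) (f := fun d => d)
  rw [← h1, h2, sigmaP_sum_image p ℓ k hℓ] at h3
  have h4 : (∑ d ∈ (if ℓ ∣ k then ((k / ℓ).divisors.filter fun d => ¬ p ∣ d).image fun d => ℓ * d
      else ∅), d) = if ℓ ∣ k then ℓ * sigmaP p (k / ℓ) else 0 := by
    split_ifs
    · exact sigmaP_sum_image p ℓ (k / ℓ) hℓ
    · simp
  rw [h4] at h3
  have h5 : (∑ d ∈ (k * ℓ).divisors with ¬ p ∣ d, d) = sigmaP p (k * ℓ) := rfl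
  have h6 : (∑ d ∈ k.divisors with ¬ p ∣ d, d) = sigmaP p k := rfl
  rw [h5, h6] at h3
  rw [h3]; ring

theorem sigmaP_mul_prime (p ℓ k : ℕ) (hp : p.Prime) (hℓ : ℓ.Prime) (hℓp : ℓ ≠ p) (hk : 0 < k) :
    (sigmaP p (k * ℓ) : ℤ) =
      (1 + (ℓ : ℤ)) * sigmaP p k - (if ℓ ∣ k then (ℓ : ℤ) * sigmaP p (k / ℓ) else 0) := by
  have h := sigmaP_mul_prime_nat p ℓ k hp hℓ hℓp hk
  have h' : ((sigmaP p (k * ℓ) + (if ℓ ∣ k then ℓ * sigmaP p (k / ℓ) else 0) : ℕ) : ℤ) =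
      (((1 + ℓ) * sigmaP p k : ℕ) : ℤ) := by rw [h]
  push_cast at h'
  rw [← h']
  ring

end Fermat.Agent.S16
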