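import Fermat.Agent.S16.Defs
import Fermat.Agent.S49.H91StepA

/-!
# S16, duality: integer `q`-coefficients on the lattice and the action of the Hecke generators
Owner: helper16.
-/

set_option autoImplicit false

namespace Fermat.Agent.S16

open ModularCurve CuspForm ModularFormClass CongruenceSubgroup
open Fermat.Agent.S49.Forms

noncomputable section

variable (N : ℕ) [NeZero N]

/-- The `k`-th `q`-coefficient of a lattice element, as an integer. -/
def coeffZ (k : ℕ) (f : ↥(intLattice N 2)) : ℤ :=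
  Classical.choose
    ((Fermat.Agent.S49h91.mem_intLattice_iff (f : CuspForm (Gamma0 N) 2)).1 f.2 k)

theorem coeffZ_spec (k : ℕ) (f : ↥(intLattice N 2)) :
    qCoeff ⇑(f : CuspForm (Gamma0 N) 2) k = (coeffZ N k f : ℂ) :=
  Classical.choose_spec
    ((Fermat.Agent.S49h91.mem_intLattice_iff (f : CuspForm (Gamma0 N) 2)).1 f.2 k)

theorem coeffZ_eq_iff (k : ℕ) (f : ↥(intLattice N 2)) (c : ℤ) :
    coeffZ N k f = c ↔ qCoeff ⇑(f : CuspForm (Gamma0 N) 2) k = (c : ℂ) := by
  rw [coeffZ_spec]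
  exact Int.cast_inj.symm

/-- The `k`-th coefficient as a linear functional on the lattice. -/
def coeffZLin (k : ℕ) : ↥(intLattice N 2) →ₗ[ℤ] ℤ where
  toFun := coeffZ N k
  map_add' f g := by
    rw [coeffZ_eq_iff]
    push_cast
    rw [← coeffZ_spec, ← coeffZ_spec]
    exact qc_add _ _ _
  map_smul' c f := by
    have h : ((c • f : ↥(intLattice N 2)) : CuspForm (Gamma0 N) 2) =
        (c : ℂ) • (f : CuspForm (Gamma0 N) 2) := by
      rw [Submodule.coe_smul]
      exact (Int.cast_smul_eq_zsmul ℂ c _).symm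
    have key : qCoeff ⇑((c • f : ↥(intLattice N 2)) : CuspForm (Gamma0 N) 2) k =
        (c : ℂ) * qCoeff ⇑(f : CuspForm (Gamma0 N) 2) k := by
      rw [h]
      exact qc_smul _ _ _
    rw [coeffZ_eq_iff, key, coeffZ_spec]
    simp

@[simp] theorem coeffZLin_apply (k : ℕ) (f : ↥(intLattice N 2)) :
    coeffZLin N k f = coeffZ N k f := rfl

theorem coeffZ_zero_index (f : ↥(intLattice N 2)) : coeffZ N 0 f = 0 := by
  rw [coeffZ_eq_iff]
  simpa using qc_zero_index (f : CuspForm (Gamma0 N) 2)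

/-- A lattice element all of whose coefficients vanish is zero. -/
theorem eq_zero_of_coeffZ (f : ↥(intLattice N 2)) (h : ∀ k, 1 ≤ k → coeffZ N k f = 0) : f = 0 := by
  apply Subtype.ext
  apply eq_zero_of_qc
  intro n
  rcases Nat.eq_zero_or_pos n with rfl | hn
  · exact qc_zero_index _
  · rw [coeffZ_spec, h n hn]; simp

/-- Saturation of the lattice: if all coefficients are divisible by `M ≠ 0`, divide. -/
theorem exists_eq_smul_of_dvd_coeffZ (M : ℤ) (f : ↥(intLattice N 2))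
    (h : ∀ k, 1 ≤ k → M ∣ coeffZ N k f) : ∃ g : ↥(intLattice N 2), f = M • g := by
  by_cases hM : M = 0
  · subst hM
    refine ⟨0, ?_⟩
    rw [smul_zero]
    apply eq_zero_of_coeffZ
    intro k hk
    simpa using h k hk
  · have hMC : (M : ℂ) ≠ 0 := by exact_mod_cast hM
    have hg : ((M : ℂ)⁻¹ • (f : CuspForm (Gamma0 N) 2)) ∈ intLattice N 2 := by
      rw [Fermat.Agent.S49h91.mem_intLattice_iff]
      intro n
      rcases Nat.eq_zero_or_pos n with rfl | hn
      · exact ⟨0, by rw [qc_zero_index]; simp⟩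
      · obtain ⟨c, hc⟩ := h n hn
        refine ⟨c, ?_⟩
        rw [qc_smul, coeffZ_spec, hc]
        push_cast
        field_simp
    refine ⟨⟨_, hg⟩, ?_⟩
    apply Subtype.ext
    rw [Submodule.coe_smul]
    simp only
    rw [← Int.cast_smul_eq_zsmul ℂ M, smul_smul, mul_inv_cancel₀ hMC, one_smul]

/-- Evaluation of Hecke polynomials on the lattice (the map of the statement S16). -/
def latEval : HeckeAlg →+* ↥(heckeLatticeAlgebra N ∅) :=
  (latticeRestrictHom N ∅).toRingHom.comp (heckeEvalForms N 2)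

theorem latEval_coe_apply (P : HeckeAlg) (f : ↥(intLattice N 2)) :
    ((((latEval N P : ↥(heckeLatticeAlgebra N ∅)) : Module.End ℤ ↥(intLattice N 2)) f :
      ↥(intLattice N 2)) : CuspForm (Gamma0 N) 2) =
    ((heckeEvalForms N 2 P : ↥(heckeAlgebra N 2 ∅)) :
      Module.End ℂ (CuspForm (Gamma0 N) 2)) (f : CuspForm (Gamma0 N) 2) := rfl

theorem heckeEvalForms_heckeGen_coe (ℓ : Nat.Primes) :
    ((heckeEvalForms N 2 (heckeGen ℓ) : ↥(heckeAlgebra N 2 ∅)) :
      Module.End ℂ (CuspForm (Gamma0 N) 2)) = heckeFam N ℓ := by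
  by_cases h : (ℓ : ℕ) ∣ N
  · rw [heckeEvalForms_heckeGen_of_dvd h, heckeFam_of_dvd h]; rfl
  · rw [heckeEvalForms_heckeGen_of_not_dvd h, heckeFam_of_not_dvd h]; rfl

/-- The level factor: `0` if `ℓ ∣ N`, `ℓ` otherwise. -/
def lvl (ℓ : ℕ) : ℤ := if ℓ ∣ N then 0 else (ℓ : ℤ)

/-- Action of the generator at `ℓ` on integer `q`-coefficients. -/
theorem coeffZ_latEval_heckeGen (ℓ : Nat.Primes) (k : ℕ) (f : ↥(intLattice N 2)) :
    coeffZ N k (((latEval N (heckeGen ℓ) : ↥(heckeLatticeAlgebra N ∅)) :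
      Module.End ℤ ↥(intLattice N 2)) f) =
      coeffZ N (k * ℓ) f + lvl N ℓ * (if (ℓ : ℕ) ∣ k then coeffZ N (k / ℓ) f else 0) := by
  rw [coeffZ_eq_iff, latEval_coe_apply, heckeEvalForms_heckeGen_coe, qc_heckeFam]
  push_cast
  rw [← coeffZ_spec]
  unfold lvl
  split_ifs <;> simp [coeffZ_spec]

end

end Fermat.Agent.S16
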